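import Fermat.Agent.S17.H677.UnramifiedHub
import Fermat.Agent.S18.Integ.Final
import Fermat.Agent.S18.H694.CoreMul
import Fermat.Agent.S18.Mod.H216.NodeMod
import Fermat.Agent.S18.H438.NodeAlg

/-!
# S17 piece W-UNR, UNCONDITIONAL (helper677)

`unramified_division`: the skeleton statement `Skel.unramified_division` of row S17
(`origin/helper17:Fermat/Agent/S17/Skeleton.lean`), verbatim and without extra hypotheses:

  for `N ≥ 5` prime, `n ≠ 0`, `ℓ ∤ nN` prime, `A` a valuation subring of `ℚ̄` over `ℓ`,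
  `σ` in the inertia group of `A`, and `y ∈ J₀(N)` with `n • y` rational:  `σ • y = y`.

Proof: `unramified_division_of_hub` (this seat, on main) needs the hub
`Fermat.Agent.S18.CoreStatement N A n` for every `A` over `ℓ`; row S18 landed it for prime
exponents (`Integ.coreStatement_of_mod_alg` with the closed nodes `Mod.H216.node_mod`,
`H438.node_alg`), and `H694.coreStatement_of_prime` passes from primes to all `n` prime to `ℓ`.
-/

set_option autoImplicit false
set_option linter.style.haveILetI false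

noncomputable section

namespace Fermat.Agent.S17.H677

open ModularCurve AlgebraicCurve

/-- The S18 hub at level `N` for every exponent prime to `ℓ`, unconditionally. -/
theorem coreAt_of_s18 (N : ℕ) [NeZero N] (n ℓ : ℕ) (hℓ : ℓ.Prime) (hℓN : ¬ ℓ ∣ N)
    (hℓn : ¬ ℓ ∣ n) : CoreAt N ℓ n := by
  haveI : Fact ℓ.Prime := ⟨hℓ⟩
  haveI : NeZero (Fermat.Agent.S18.Integ.levelM N ℓ) :=
    ⟨Fermat.Agent.S18.Integ.levelM_ne_zero N ℓ⟩
  intro A hA
  refine Fermat.Agent.S18.H694.coreStatement_of_prime hℓN hA (fun p hp hℓp => ?_) n hℓn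
  exact Fermat.Agent.S18.Integ.coreStatement_of_mod_alg N hℓN A hA p hp hℓp
    (Fermat.Agent.S18.Mod.H216.node_mod (Fermat.Agent.S18.Integ.levelM N ℓ)
      (Fermat.Agent.S18.Integ.not_dvd_levelM N hℓN) A hA)
    (Fermat.Agent.S18.H438.node_alg (Fermat.Agent.S18.Integ.levelM N ℓ))

/-- **W-UNR** (skeleton statement `Skel.unramified_division`, verbatim, unconditional). -/
theorem unramified_division
    (N : ℕ) [NeZero N] (hN : N.Prime) (hN5 : 5 ≤ N) (n : ℕ) (hn : n ≠ 0)
    (ℓ : ℕ) (hℓ : ℓ.Prime) (hℓn : ¬ ℓ ∣ n * N)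
    (A : ValuationSubring (AlgebraicClosure ℚ)) (hA : A.LiesOverPrime ℓ)
    (σ : AlgebraicClosure ℚ ≃ₐ[ℚ] AlgebraicClosure ℚ) (hσ : σ ∈ A.inertiaSubgroupIn ℚ)
    (y : JZero N)
    (hy : n • y ∈
      FixedPoints.addSubgroup (AlgebraicClosure ℚ ≃ₐ[ℚ] AlgebraicClosure ℚ) (JZero N)) :
    σ • y = y :=
  unramified_division_of_hub N hN hN5 n hn ℓ hℓ hℓn
    (coreAt_of_s18 N n ℓ hℓ (fun h => hℓn (Dvd.dvd.mul_left h n))
      (fun h => hℓn (Dvd.dvd.mul_right h N)))
    A hA σ hσ y hy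

end Fermat.Agent.S17.H677
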