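import Fermat.Agent.S17.H677.UnramifiedCore
import Fermat.Agent.S17.H680.Cusp

/-!
# S17 piece W-UNR from the S18 hub ALONE (helper677)

`unramified_division_of_hub`: the skeleton statement `Skel.unramified_division` with the single
extra hypothesis `CoreAt N ℓ n` (= `Fermat.Agent.S18.CoreStatement N A n` for every valuation
subring `A` of `ℚ̄` over `ℓ`), which is the hub statement the S18 row proves on its way to S18.

No place reduction map (S37 `node_rim`) and no frozen S18 are used:
* `PrincipalGeneratedByIntegral` is on `main` (helper448);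
* rational classes have Galois-fixed divisors (helper680, minimal representatives w.r.t. the
  cusp `∞`).
-/

set_option autoImplicit false
set_option linter.style.haveILetI false

noncomputable section

namespace Fermat.Agent.S17.H677

open ModularCurve AlgebraicCurve HahnSeries

/-- **BASE-2** in the shape used by route B: every rational class is represented by a divisor of
degree zero fixed by Galois (helper680's minimal representative). -/
theorem rationalRep (N : ℕ) [NeZero N] : RationalRep N := by
  intro x hx τ
  haveI := Fermat.Agent.Lib.RR.H804.ff1_modular N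
  refine ⟨Fermat.Agent.S17.H680.minDiv (Fermat.Agent.S17.H680.JZero.cusp N) x,
    Fermat.Agent.S17.H680.mk_minDiv _ x, ?_⟩
  exact Fermat.Agent.S17.H680.smul_minDiv_eq _
    (Fermat.Agent.S17.H680.JZero.galois_smul_cusp N τ)
    ((Fermat.Agent.S17.H680.JZero.mem_fixedPoints_iff N x).mp hx τ)

/-- **W-UNR from the S18 hub alone**: skeleton shape, single hypothesis `CoreAt N ℓ n`. -/
theorem unramified_division_of_hub
    (N : ℕ) [NeZero N] (hN : N.Prime) (hN5 : 5 ≤ N) (n : ℕ) (hn : n ≠ 0)
    (ℓ : ℕ) (hℓ : ℓ.Prime) (hℓn : ¬ ℓ ∣ n * N)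
    (hcore : CoreAt N ℓ n)
    (A : ValuationSubring (AlgebraicClosure ℚ)) (hA : A.LiesOverPrime ℓ)
    (σ : AlgebraicClosure ℚ ≃ₐ[ℚ] AlgebraicClosure ℚ) (hσ : σ ∈ A.inertiaSubgroupIn ℚ)
    (y : JZero N)
    (hy : n • y ∈
      FixedPoints.addSubgroup (AlgebraicClosure ℚ ≃ₐ[ℚ] AlgebraicClosure ℚ) (JZero N)) :
    σ • y = y :=
  unramified_division_of_core N hN hN5 n hn ℓ hℓ hℓn hcore (rationalRep N) A hA σ hσ y hy

end Fermat.Agent.S17.H677
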