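import Fermat.Agent.S37.H697.Pic0Level
import Fermat.Agent.S37.H98.RiemannBound
import Fermat.Prelude.Def_FLTPrelim_Ramification

/-!
# S17 piece W-UNR (helper677): division points of rational points are unramified outside `n N`

Skeleton statement (`Fermat.Agent.S17.Skel.unramified_division`):
for `ℓ ∤ n N`, a valuation subring `A ⊆ ℚ̄` over `ℓ`, `σ` in the inertia group of `A` and
`y ∈ J₀(N)(ℚ̄)` with `n • y ∈ J₀(N)(ℚ)`:  `σ • y = y`.

Here it is proved from exactly TWO named inputs, both of which are targets of other rows: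

* `S18Statement`   : the frozen statement S18, verbatim, as a `Prop` (injectivity of the reduction
  map on prime-to-`ℓ` torsion);
* `GoodReductionAt N ℓ` : existence of the Prelude reduction inputs `ReductionInputsModL A N` for
  every valuation subring `A` over `ℓ` (S37 row, piece RIM).

Everything else is on `main`: the Riemann bound for `ℚ̄(X₀(N))` (helper98) and the equivariance
of the reduction map on `Pic⁰` (helper697), which only needs the Riemann bound
(NOT the divisibility of `Pic⁰`).

Proof: `z = σ • y - y` is killed by `n` because `n • y` is Galois-fixed, and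
`red z = red (σ • y) - red y = 0` because `σ` induces the identity on the residue field.
-/

set_option autoImplicit false
set_option linter.style.haveILetI false

noncomputable section

namespace Fermat.Agent.S17.H677

open ModularCurve AlgebraicCurve HahnSeries ValuationSubring

/-- `ℚ̄` -/
abbrev Qb : Type := AlgebraicClosure ℚ

/-- the absolute Galois group of `ℚ` -/
abbrev GQ : Type := Qb ≃ₐ[ℚ] Qb

/-- The frozen statement S18, verbatim, as a proposition. -/
def S18Statement : Prop :=
  ∀ (N : ℕ) [NeZero N] {ℓ : ℕ} [Fact ℓ.Prime] (_hℓN : ¬ ℓ ∣ N)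
    (A : ValuationSubring (AlgebraicClosure ℚ)) (_hA : A.LiesOverPrime ℓ)
    (_h : ModularCurve.ReductionInputsModL A N) (m : ℕ) (_hm : ¬ ℓ ∣ m)
    (z : ModularCurve.JZero N) (_hmz : m • z = 0)
    (_hz : ModularCurve.reductionModL A N z = 0), z = 0

/-- Good reduction of `X₀(N)` at `ℓ` in the Prelude's sense: reduction inputs exist for every
valuation subring of `ℚ̄` over `ℓ`. -/
def GoodReductionAt (N ℓ : ℕ) : Prop :=
  ∀ A : ValuationSubring (AlgebraicClosure ℚ), A.LiesOverPrime ℓ → ReductionInputsModL A N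

section Inertia

set_option synthInstance.maxHeartbeats 400000
set_option maxHeartbeats 1600000

variable {N : ℕ} {A : ValuationSubring Qb}

/-- Elements of the decomposition group preserve `A`. -/
theorem wunr_apply_mem {σ : GQ} (hσ : σ ∈ A.decompositionSubgroup ℚ) : ∀ a ∈ A, σ a ∈ A :=
  fun a ha => ((⟨σ, hσ⟩ : A.decompositionSubgroup ℚ) • (⟨a, ha⟩ : A)).2

/-- An element of the inertia group induces the identity on the residue field. -/
theorem wunr_residue_apply {d : A.decompositionSubgroup ℚ} (hd : d ∈ A.inertiaSubgroup ℚ)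
    (a : A) :
    IsLocalRing.residue A ⟨(d : GQ) a, wunr_apply_mem d.2 a a.2⟩
      = (RingEquiv.refl (IsLocalRing.ResidueField A)) (IsLocalRing.residue A a) := by
  have h1 : IsLocalRing.residue A ⟨(d : GQ) a, wunr_apply_mem d.2 a a.2⟩
      = d • IsLocalRing.residue A a :=
    IsLocalRing.ResidueField.residue_smul (A.decompositionSubgroup ℚ) d a
  have h2 : MulSemiringAction.toRingAut (A.decompositionSubgroup ℚ)
      (IsLocalRing.ResidueField A) d = 1 := MonoidHom.mem_ker.mp hd
  have h3 : d • IsLocalRing.residue A a = IsLocalRing.residue A a :=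
    congrArg (fun e : RingAut (IsLocalRing.ResidueField A) => e (IsLocalRing.residue A a)) h2
  rw [h1, h3]
  rfl

/-- **Inertia acts trivially after reduction** (lean re-statement of helper697's
`reductionModL_inertia`, with the Riemann bound discharged). -/
theorem reductionModL_inertia_smul [NeZero N] (h : ReductionInputsModL A N)
    (τ : GQ) (hτ : τ ∈ A.inertiaSubgroupIn ℚ) (x : JZero N) :
    reductionModL A N (τ • x) = reductionModL A N x := by
  obtain ⟨d, hd, rfl⟩ := hτ
  have hR : Fermat.Agent.S37.H697.RiemannBound Qb (modularFunctionFieldBar N) :=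
    Fermat.Agent.S37.H98.riemannBound_modularFunctionFieldBar N
  have hred : reductionModL A N = reductionPic0Along h.choose h.choose_spec.1 h.choose_spec.2 :=
    reductionAlong_eq h
  rw [hred]
  have key := Fermat.Agent.S37.H697.reductionPic0Along_galois_smul h.choose_spec.1
    h.choose_spec.2 hR (d : GQ) (wunr_apply_mem d.2) (RingEquiv.refl _)
    (wunr_residue_apply hd) x
  rw [Fermat.Agent.S37.H697.coeffSL_refl, one_smul] at key
  exact key

end Inertia

/-- The Mordell–Weil group `J₀(N)(ℚ)`. -/
abbrev MW (N : ℕ) : AddSubgroup (JZero N) := FixedPoints.addSubgroup GQ (JZero N)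

/-- **W-UNR, local form.**  If `A` carries reduction inputs and the reduction map at `A` is
injective on `n`-torsion, then inertia at `A` fixes every `n`-division point of a rational
point. -/
theorem unramified_division_of_inj (N : ℕ) [NeZero N] (n : ℕ)
    (A : ValuationSubring Qb) (h : ReductionInputsModL A N)
    (hinj : ∀ z : JZero N, n • z = 0 → reductionModL A N z = 0 → z = 0)
    (σ : GQ) (hσ : σ ∈ A.inertiaSubgroupIn ℚ)
    (y : JZero N) (hy : n • y ∈ MW N) : σ • y = y := by
  have hfix : σ • (n • y) = n • y := hy σ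
  have hcomm : σ • (n • y) = n • (σ • y) :=
    map_nsmul (DistribSMul.toAddMonoidHom (JZero N) σ) n y
  have hz : n • (σ • y - y) = 0 := by
    rw [nsmul_sub, ← hcomm, hfix, sub_self]
  have hred : reductionModL A N (σ • y - y) = 0 := by
    rw [map_sub, reductionModL_inertia_smul h σ hσ y, sub_self]
  exact sub_eq_zero.mp (hinj _ hz hred)

/-- **W-UNR from S18 and good reduction.**  The skeleton statement `unramified_division`, with the
two named inputs `S18Statement` (frozen S18) and `GoodReductionAt N ℓ` (S37 row, RIM) as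
hypotheses. -/
theorem unramified_division_of (hS18 : S18Statement)
    (N : ℕ) [NeZero N] (n : ℕ) (ℓ : ℕ) (hℓ : ℓ.Prime) (hℓn : ¬ ℓ ∣ n * N)
    (hGR : GoodReductionAt N ℓ)
    (A : ValuationSubring Qb) (hA : A.LiesOverPrime ℓ) (σ : GQ) (hσ : σ ∈ A.inertiaSubgroupIn ℚ)
    (y : JZero N) (hy : n • y ∈ MW N) : σ • y = y := by
  haveI : Fact ℓ.Prime := ⟨hℓ⟩
  have hℓN : ¬ ℓ ∣ N := fun hd => hℓn (Dvd.dvd.mul_left hd n)
  have hℓm : ¬ ℓ ∣ n := fun hd => hℓn (Dvd.dvd.mul_right hd N)
  have h := hGR A hA
  exact unramified_division_of_inj N n A h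
    (fun z hz hr => hS18 N hℓN A hA h n hℓm z hz hr) σ hσ y hy

/-- **W-UNR, skeleton shape** (`Fermat.Agent.S17.Skel.unramified_division`), from S18 and good
reduction of `X₀(N)` outside `N`. -/
theorem unramified_division_of' (hS18 : S18Statement)
    (hGR : ∀ (N : ℕ) [NeZero N] (ℓ : ℕ), ℓ.Prime → ¬ ℓ ∣ N → GoodReductionAt N ℓ)
    (N : ℕ) [NeZero N] (_hN : N.Prime) (_hN5 : 5 ≤ N) (n : ℕ) (_hn : n ≠ 0)
    (ℓ : ℕ) (hℓ : ℓ.Prime) (hℓn : ¬ ℓ ∣ n * N)
    (A : ValuationSubring Qb) (hA : A.LiesOverPrime ℓ) (σ : GQ) (hσ : σ ∈ A.inertiaSubgroupIn ℚ)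
    (y : JZero N) (hy : n • y ∈ MW N) : σ • y = y :=
  unramified_division_of hS18 N n ℓ hℓ hℓn
    (hGR N ℓ hℓ (fun hd => hℓn (Dvd.dvd.mul_left hd n))) A hA σ hσ y hy

end Fermat.Agent.S17.H677
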