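import Fermat.Agent.S29.H222.ESKInertia
import Fermat.Agent.S37.H448.Gen

/-!
# S17 piece W-UNR, route B (helper677): from the S18 hub `CoreStatement`, WITHOUT a place reduction

`unramified_division` (skeleton): for `ℓ ∤ n N`, `A` over `ℓ`, `σ` in the inertia group of `A`,
`y ∈ J₀(N)(ℚ̄)` with `n • y ∈ J₀(N)(ℚ)`:  `σ • y = y`.

Route B needs

* `CoreStatement N A n`  — the Kummer-type hub of the S18 row (`Fermat.Agent.S18.Spec`);
* a divisor of degree zero representing `n • y` which is fixed by `σ` (`HasFixedRep`; BASE-2 of the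
  S17 plan: a Galois-fixed class has a Galois-fixed divisor, because the cusp `∞` is rational).

`PrincipalGeneratedByIntegral` is on `main` unconditionally (helper448/helper700).
No place reduction map `r`, no special fibre, no frozen S18, no divisibility of `Pic⁰`.

Proof (variant of helper222's ESK-U): `y = [D]`, `n D = D_x + div U₁ - div U₂` with `U₁, U₂` integral
and `σ D_x = D_x`.  Put `V₁ = σU₁ · U₂`, `V₂ = U₁ · σU₂`: same reduction, and
`div V₁ - div V₂ = n (σD - D)`.  CORE gives `V₁ = c y^n V₂`, hence `σD - D = div y`.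
-/

set_option autoImplicit false
set_option linter.style.haveILetI false

noncomputable section

namespace Fermat.Agent.S17.H677

open ModularCurve AlgebraicCurve HahnSeries IsLocalRing
open Fermat.Agent.S18 (IsInt toF CoreStatement)
open Fermat.Agent.S29.H222

/-- The class `x` is represented by a divisor of degree zero fixed by `τ`. -/
def HasFixedRep (N : ℕ) (τ : AlgebraicClosure ℚ ≃ₐ[ℚ] AlgebraicClosure ℚ) (x : JZero N) : Prop :=
  ∃ D : Divisor.degZero (K := AlgebraicClosure ℚ) (F := modularFunctionFieldBar N),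
    (Pic0.mk D : JZero N) = x ∧
      arithmeticGalois (modularFunctionFieldFull N) τ •
        (D : Divisor (AlgebraicClosure ℚ) (modularFunctionFieldBar N)) = D

/-- If `[E] = n • [D]` in `Pic⁰`, then `n D - E` is principal. -/
theorem wunr_sub_mem_principal {N : ℕ} {n : ℕ}
    (D E : Divisor.degZero (K := AlgebraicClosure ℚ) (F := modularFunctionFieldBar N))
    (h : (Pic0.mk E : JZero N) = n • (Pic0.mk D : JZero N)) :
    (n : ℤ) • (D : Divisor (AlgebraicClosure ℚ) (modularFunctionFieldBar N))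
        - (E : Divisor (AlgebraicClosure ℚ) (modularFunctionFieldBar N))
      ∈ Divisor.principal (K := AlgebraicClosure ℚ) (F := modularFunctionFieldBar N) := by
  have h1 : (Pic0.mk E : JZero N) = Pic0.mk (n • D) := by
    rw [h]; rfl
  have h2 : -E + n • D ∈
      (Divisor.principal (K := AlgebraicClosure ℚ) (F := modularFunctionFieldBar N)).addSubgroupOf
        (Divisor.degZero (K := AlgebraicClosure ℚ) (F := modularFunctionFieldBar N)) :=
    QuotientAddGroup.eq.mp h1
  rw [AddSubgroup.mem_addSubgroupOf] at h2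
  have h3 : ((-E + n • D : Divisor.degZero (K := AlgebraicClosure ℚ)
      (F := modularFunctionFieldBar N)) : Divisor (AlgebraicClosure ℚ) (modularFunctionFieldBar N))
      = (n : ℤ) • (D : Divisor (AlgebraicClosure ℚ) (modularFunctionFieldBar N))
        - (E : Divisor (AlgebraicClosure ℚ) (modularFunctionFieldBar N)) := by
    push_cast
    rw [natCast_zsmul]
    abel
  rwa [h3] at h2

/-- **W-UNR, route B, local form.** -/
theorem unramified_division_of_core_local (N : ℕ) [NeZero N] (n : ℕ) (hn : n ≠ 0)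
    (A : ValuationSubring (AlgebraicClosure ℚ)) (hcore : CoreStatement N A n)
    (hpgi : PrincipalGeneratedByIntegral A (residue A) N)
    (σ : AlgebraicClosure ℚ ≃ₐ[ℚ] AlgebraicClosure ℚ) (hσ : σ ∈ A.inertiaSubgroupIn ℚ)
    (y : JZero N) (hrep : HasFixedRep N σ (n • y)) : σ • y = y := by
  obtain ⟨g, hg, rfl⟩ := hσ
  obtain ⟨D, rfl⟩ := Pic0.mk_surjective y
  obtain ⟨E, hE, hfix⟩ := hrep
  obtain ⟨U₁, U₂, h₁, h₂, D₁, D₂, hd₁, hd₂, hDD⟩ :=
    exists_isInt_of_principal hpgi (wunr_sub_mem_principal D E hE)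
  set G := arithmeticGalois (modularFunctionFieldFull N)
    (((A.decompositionSubgroup ℚ).subtype g : AlgebraicClosure ℚ ≃ₐ[ℚ] AlgebraicClosure ℚ))
    with hG
  have hV₁ : IsInt A N (galA g U₁ * U₂) := isInt_mul (isInt_galA g h₁) h₂
  have hV₂ : IsInt A N (U₁ * galA g U₂) := isInt_mul h₁ (isInt_galA g h₂)
  have hred : coeffMap (residue A) (galA g U₁ * U₂) = coeffMap (residue A) (U₁ * galA g U₂) := by
    rw [map_mul, map_mul, coeffMap_residue_galA, coeffMap_residue_galA,
      coeffMap_decK_of_mem_inertia hg, coeffMap_decK_of_mem_inertia hg]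
  have hgd₁ : IsDivOf (toF (isInt_galA g h₁)) (G • D₁) := by
    rw [toF_galA]; exact hd₁.smul G
  have hgd₂ : IsDivOf (toF (isInt_galA g h₂)) (G • D₂) := by
    rw [toF_galA]; exact hd₂.smul G
  have hdV₁ : IsDivOf (toF hV₁) (G • D₁ + D₂) := by
    rw [toF_mul (isInt_galA g h₁) h₂]
    exact hgd₁.mul (toF_ne_zero _) (toF_ne_zero _) hd₂
  have hdV₂ : IsDivOf (toF hV₂) (D₁ + G • D₂) := by
    rw [toF_mul h₁ (isInt_galA g h₂)]
    exact hd₁.mul (toF_ne_zero _) (toF_ne_zero _) hgd₂
  have hkey : ∀ v : Place (AlgebraicClosure ℚ) (modularFunctionFieldBar N),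
      (n : ℤ) * (G • (D : Divisor (AlgebraicClosure ℚ) (modularFunctionFieldBar N)) - D) v
        = v.ord (toF hV₁) - v.ord (toF hV₂) := by
    intro v
    rw [← hdV₁ v, ← hdV₂ v]
    have e1 : ((n : ℤ) • (D : Divisor (AlgebraicClosure ℚ) (modularFunctionFieldBar N))
        - (E : Divisor (AlgebraicClosure ℚ) (modularFunctionFieldBar N))) v = D₁ v - D₂ v := by
      rw [hDD, Finsupp.sub_apply]
    have e2 : ((n : ℤ) • (D : Divisor (AlgebraicClosure ℚ) (modularFunctionFieldBar N))
        - (E : Divisor (AlgebraicClosure ℚ) (modularFunctionFieldBar N))) (G⁻¹ • v)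
        = D₁ (G⁻¹ • v) - D₂ (G⁻¹ • v) := by
      rw [hDD, Finsupp.sub_apply]
    have e3 : (E : Divisor (AlgebraicClosure ℚ) (modularFunctionFieldBar N)) (G⁻¹ • v)
        = (E : Divisor (AlgebraicClosure ℚ) (modularFunctionFieldBar N)) v := by
      have := congrArg (fun X : Divisor (AlgebraicClosure ℚ) (modularFunctionFieldBar N) => X v)
        hfix
      simp only [SemilinearAut.divisor_smul_apply] at this
      exact this
    rw [Finsupp.sub_apply, Finsupp.smul_apply, smul_eq_mul] at e1 e2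
    simp only [Finsupp.sub_apply, Finsupp.add_apply, SemilinearAut.divisor_smul_apply]
    linear_combination e2 - e1 + e3
  have hord : ∀ v : Place (AlgebraicClosure ℚ) (modularFunctionFieldBar N),
      (n : ℤ) ∣ v.ord (toF hV₁) - v.ord (toF hV₂) := fun v => ⟨_, (hkey v).symm⟩
  obtain ⟨c, y, hc, hy, hcy⟩ := hcore _ _ hV₁ hV₂ hred hord
  have hEy := isDivOf_of_eq_const_mul_pow hn hc hy (toF_ne_zero hV₂) hcy hkey
  show (((A.decompositionSubgroup ℚ).subtype g : AlgebraicClosure ℚ ≃ₐ[ℚ] AlgebraicClosure ℚ))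
    • (Pic0.mk D : JZero N) = Pic0.mk D
  rw [galois_smul_pic0_def, SemilinearAut.pic0_smul_mk]
  exact pic0_mk_eq_of_isDivOf D _ hy hEy

/-- Every rational class has a Galois-fixed divisor of degree zero (BASE-2 of the S17 plan). -/
def RationalRep (N : ℕ) : Prop :=
  ∀ x : JZero N,
    x ∈ FixedPoints.addSubgroup (AlgebraicClosure ℚ ≃ₐ[ℚ] AlgebraicClosure ℚ) (JZero N) →
      ∀ τ : AlgebraicClosure ℚ ≃ₐ[ℚ] AlgebraicClosure ℚ, HasFixedRep N τ x

/-- The S18 hub at all places over `ℓ`. -/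
def CoreAt (N ℓ n : ℕ) : Prop :=
  ∀ A : ValuationSubring (AlgebraicClosure ℚ), A.LiesOverPrime ℓ → CoreStatement N A n

/-- **W-UNR, route B, skeleton shape** (`Fermat.Agent.S17.Skel.unramified_division`), from the
S18 hub `CoreStatement` and rational representatives. -/
theorem unramified_division_of_core
    (N : ℕ) [NeZero N] (_hN : N.Prime) (_hN5 : 5 ≤ N) (n : ℕ) (hn : n ≠ 0)
    (ℓ : ℕ) (hℓ : ℓ.Prime) (hℓn : ¬ ℓ ∣ n * N)
    (hcore : CoreAt N ℓ n) (hrat : RationalRep N)
    (A : ValuationSubring (AlgebraicClosure ℚ)) (hA : A.LiesOverPrime ℓ)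
    (σ : AlgebraicClosure ℚ ≃ₐ[ℚ] AlgebraicClosure ℚ) (hσ : σ ∈ A.inertiaSubgroupIn ℚ)
    (y : JZero N)
    (hy : n • y ∈
      FixedPoints.addSubgroup (AlgebraicClosure ℚ ≃ₐ[ℚ] AlgebraicClosure ℚ) (JZero N)) :
    σ • y = y :=
  unramified_division_of_core_local N n hn A (hcore A hA)
    (Fermat.Agent.S37.H448.principalGeneratedByIntegral N hℓ
      (fun hd => hℓn (Dvd.dvd.mul_left hd n)) A hA)
    σ hσ y (hrat _ hy σ)

end Fermat.Agent.S17.H677
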